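import Fermat.Agent.SS.Formal.Red
import Fermat.Agent.S18.Inputs

/-!
# S43 / DX / Abs : calculus of "constant modulo the Gauss valuation" and the Fourier trick

`IsC A x` : the Laurent series `x ∈ ℚ̄((t))` is `c (1 + small)` for the Gauss valuation of `A((t))`.

* `IsC.mul`, `IsC.inv`, `IsC.div`, `IsC.pow`;
* `IsC.of_pow`   : if `x` has a reduction up to a constant and `x ^ m` is `IsC` (`m > 0`), then `x` is `IsC`;
* `isC_gal_div`  : `σ x / x` is `IsC` for `σ` in the inertia group;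
* `exists_dft`   : if `w i / w 0` is `IsC` for all `i < n` and `n` is a unit of `A`, then for some `j < n`
                   the Fourier sum `∑ i < n, ξ ^ (i * j) * w i` is `w 0` times an `IsC` series.
-/

set_option autoImplicit false

open AlgebraicCurve ModularCurve

namespace Fermat.Agent.S43.DX

open Fermat.Agent.ES Fermat.Agent.SS

noncomputable section

variable {A : ValuationSubring Qb}

/-- `x = c (1 + small)`. -/
def IsC (A : ValuationSubring Qb) (x : LaurentSeries Qb) : Prop :=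
  ∃ c : Qb, c ≠ 0 ∧ RedTo A (cst c * x) 1

/-- `x` has a nonzero reduction, up to a constant. -/
def HasRd (A : ValuationSubring Qb) (x : LaurentSeries Qb) : Prop :=
  ∃ (c : Qb) (r : LaurentSeries (kA A)), c ≠ 0 ∧ r ≠ 0 ∧ RedTo A (cst c * x) r

variable {x y : LaurentSeries Qb}

theorem cst_ne_zero {c : Qb} (hc : c ≠ 0) : cst c ≠ 0 := by
  rw [Ne, map_eq_zero]; exact hc

theorem cst_one : cst (1 : Qb) = 1 := map_one _
theorem cst_mul (c d : Qb) : cst (c * d) = cst c * cst d := map_mul _ _ _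
theorem cst_inv (c : Qb) : cst c⁻¹ = (cst c)⁻¹ := map_inv₀ _ _
theorem cst_div (c d : Qb) : cst (c / d) = cst c / cst d := map_div₀ _ _ _
theorem cst_pow (c : Qb) (n : ℕ) : cst (c ^ n) = cst c ^ n := map_pow _ _ _
theorem cstk_one : cstk A (1 : kA A) = 1 := map_one _
theorem cstk_zero : cstk A (0 : kA A) = 0 := map_zero _
theorem cstk_mul (c d : kA A) : cstk A (c * d) = cstk A c * cstk A d := map_mul _ _ _

theorem IsC.one : IsC A 1 := ⟨1, one_ne_zero, by
  have : cst (1 : Qb) * (1 : LaurentSeries Qb) = 1 := by rw [cst_one, mul_one]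
  rw [this]; exact RedTo.one⟩

theorem IsC.mul (hx : IsC A x) (hy : IsC A y) : IsC A (x * y) := by
  obtain ⟨c, hc, h⟩ := hx
  obtain ⟨d, hd, h'⟩ := hy
  refine ⟨c * d, mul_ne_zero hc hd, (h.mul h').congr ?_ (one_mul 1)⟩
  rw [cst_mul]; ring

theorem IsC.inv (hx : IsC A x) : IsC A x⁻¹ := by
  obtain ⟨c, hc, h⟩ := hx
  refine ⟨c⁻¹, inv_ne_zero hc, (h.inv one_ne_zero).congr ?_ inv_one⟩
  rw [mul_inv, cst_inv]

theorem IsC.div (hx : IsC A x) (hy : IsC A y) : IsC A (x / y) := by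
  rw [div_eq_mul_inv]; exact hx.mul hy.inv

theorem IsC.pow (hx : IsC A x) (n : ℕ) : IsC A (x ^ n) := by
  induction n with
  | zero => rw [pow_zero]; exact IsC.one
  | succ n ih => rw [pow_succ]; exact ih.mul hx

theorem IsC.cst {c : Qb} (hc : c ≠ 0) : IsC A (cst c) := by
  refine ⟨c⁻¹, inv_ne_zero hc, RedTo.one.congr ?_ rfl⟩
  rw [← cst_mul, inv_mul_cancel₀ hc, cst_one]

theorem IsC.ne_zero (hx : IsC A x) : x ≠ 0 := by
  rintro rfl
  obtain ⟨c, -, h⟩ := hx
  have h0 : RedTo A (SS.cst c * (0 : LaurentSeries Qb)) 0 := by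
    refine ⟨0, 1, ?_, ?_, ?_⟩
    · rw [map_one]; exact one_ne_zero
    · simp
    · simp
  exact one_ne_zero (h.unique h0)

theorem IsC.congr (hx : IsC A x) (h : x = y) : IsC A y := h ▸ hx

theorem IsC.hasRd (hx : IsC A x) : HasRd A x := by
  obtain ⟨c, hc, h⟩ := hx
  exact ⟨c, 1, hc, one_ne_zero, h⟩

/-- an element of `k((t))` which is algebraic over `k` is a constant. -/
theorem exists_cstk_of_pow {r : LaurentSeries (kA A)} {b : kA A} {m : ℕ} (hm : 0 < m)
    (h : r ^ m = cstk A b) : ∃ b' : kA A, r = cstk A b' := by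
  have hcl : IsAlgClosed (kA A) := S18.isAlgClosed_residueField A
  have hint : IsIntegral (kA A) r := by
    refine ⟨Polynomial.X ^ m - Polynomial.C b, Polynomial.monic_X_pow_sub_C b hm.ne', ?_⟩
    rw [Polynomial.eval₂_sub, Polynomial.eval₂_pow, Polynomial.eval₂_X, Polynomial.eval₂_C, h, sub_self]
  have hdeg : (minpoly (kA A) r).degree = 1 :=
    IsAlgClosed.degree_eq_one_of_irreducible (kA A) (minpoly.irreducible hint)
  obtain ⟨b', hb'⟩ := minpoly.mem_range_of_degree_eq_one (kA A) r hdeg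
  exact ⟨b', hb'.symm⟩

theorem IsC.of_pow {m : ℕ} (hm : 0 < m) (hx : HasRd A x) (h : IsC A (x ^ m)) : IsC A x := by
  obtain ⟨c, r, hc, hr, h1⟩ := hx
  obtain ⟨d, hd, h2⟩ := h
  have hx0 : x ≠ 0 := by
    rintro rfl
    rw [zero_pow hm.ne'] at h2
    exact (IsC.ne_zero (A := A) ⟨d, hd, h2⟩) rfl
  -- `cst (c ^ m / d)` reduces to `r ^ m`
  have h3 := (h1.pow m).mul (h2.inv one_ne_zero)
  have e3 : (SS.cst c * x) ^ m * (SS.cst d * x ^ m)⁻¹ = SS.cst (c ^ m / d) := by
    have e1 : SS.cst (c ^ m / d) = SS.cst c ^ m / SS.cst d := by rw [cst_div, cst_pow]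
    have hd' := cst_ne_zero hd
    have hxm : x ^ m ≠ 0 := pow_ne_zero _ hx0
    rw [e1, mul_pow, mul_inv]
    field_simp
  rw [e3, inv_one, mul_one] at h3
  obtain ⟨a, -, hra⟩ := h3.const
  obtain ⟨b', hb'⟩ := exists_cstk_of_pow hm hra
  have hb0 : b' ≠ 0 := by
    rintro rfl
    rw [cstk_zero] at hb'
    exact hr hb'
  obtain ⟨a', rfl⟩ := IsLocalRing.residue_surjective b'
  have hu : IsUnit a' := by
    by_contra hu
    exact hb0 ((IsLocalRing.residue_eq_zero_iff _).mpr ((IsLocalRing.mem_maximalIdeal _).mpr hu))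
  obtain ⟨u, rfl⟩ := hu
  have hu0 : (((u⁻¹ : Aˣ) : A) : Qb) ≠ 0 := by
    intro h0
    have : ((u⁻¹ : Aˣ) : A) = 0 := Subtype.ext h0
    exact (u⁻¹).ne_zero this
  refine ⟨(((u⁻¹ : Aˣ) : A) : Qb) * c, mul_ne_zero hu0 hc, ?_⟩
  refine ((RedTo.cst_of_mem ((u⁻¹ : Aˣ) : A)).mul h1).congr ?_ ?_
  · rw [cst_mul, mul_assoc]
  · rw [hb', ← cstk_mul]
    have : resA A ((u⁻¹ : Aˣ) : A) * IsLocalRing.residue A (u : A) = 1 := by
      rw [← map_mul, Units.inv_mul, map_one]
    rw [this, cstk_one]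

theorem RedTo.add' {x' : LaurentSeries Qb} {r r' : LaurentSeries (kA A)}
    (h : RedTo A x r) (h' : RedTo A x' r') : RedTo A (x + x') (r + r') := by
  obtain ⟨y₁, y₂, h0, h1, h2⟩ := h
  obtain ⟨z₁, z₂, k0, k1, k2⟩ := h'
  refine ⟨y₁ * z₂ + z₁ * y₂, y₂ * z₂, ?_, ?_, ?_⟩
  · rw [map_mul]; exact mul_ne_zero h0 k0
  · rw [map_add, map_mul, map_mul, map_mul, ← h1, ← k1]; ring
  · rw [map_add, map_mul, map_mul, map_mul, h2, k2]; ring

theorem RedTo.zero' : RedTo A 0 0 := by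
  refine ⟨0, 1, ?_, ?_, ?_⟩
  · rw [map_one]; exact one_ne_zero
  · simp
  · simp

theorem RedTo.sum' {ι : Type*} (s : Finset ι) (X : ι → LaurentSeries Qb)
    (R : ι → LaurentSeries (kA A)) (h : ∀ i ∈ s, RedTo A (X i) (R i)) :
    RedTo A (∑ i ∈ s, X i) (∑ i ∈ s, R i) := by
  classical
  induction s using Finset.induction_on with
  | empty => simpa using RedTo.zero'
  | insert a s ha ih =>
    rw [Finset.sum_insert ha, Finset.sum_insert ha]
    exact RedTo.add' (h a (Finset.mem_insert_self a s))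
      (ih fun i hi => h i (Finset.mem_insert_of_mem hi))

/-- `σ x / x` is constant modulo the Gauss valuation for `σ` in the inertia group. -/
theorem isC_gal_div (g : A.decompositionSubgroup ℚ) (hg : (resA A).comp (galA g) = resA A)
    (hx : HasRd A x) : IsC A (coeffMap (((g : GQ) : Qb →+* Qb)) x / x) := by
  obtain ⟨c, r, hc, hr, h⟩ := hx
  have h1 := h.gal g (RingHom.id _) (by rw [hg, RingHom.id_comp])
  have hid : coeffMap (RingHom.id (kA A)) r = r := by
    ext n; rw [coeffMap_coeff]; rfl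
  rw [hid, map_mul] at h1
  have hgal : coeffMap (((g : GQ) : Qb →+* Qb)) (SS.cst c) = SS.cst ((g : GQ) c) := by
    rw [SS.cst, SS.cst, algebraMap_laurentSeries_eq_single, algebraMap_laurentSeries_eq_single,
      coeffMap_single]
    rfl
  rw [hgal] at h1
  have hc' : (g : GQ) c ≠ 0 := by rw [Ne, map_eq_zero]; exact hc
  have hx0 : x ≠ 0 := by
    rintro rfl
    rw [mul_zero] at h
    exact hr (h.unique RedTo.zero')
  refine ⟨(g : GQ) c / c, div_ne_zero hc' hc, ((h1.mul (h.inv hr)).congr ?_ (mul_inv_cancel₀ hr))⟩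
  have e1 : SS.cst ((g : GQ) c / c) = SS.cst ((g : GQ) c) / SS.cst c := cst_div _ _
  have hcc := cst_ne_zero hc
  rw [e1]
  field_simp

/-- a linear combination of `IsC` series whose "constant term" dominates is `IsC`. -/
theorem isC_sum {ι : Type*} (s : Finset ι) (η : ι → LaurentSeries Qb) (e a : ι → Qb)
    (he : ∀ i ∈ s, e i ≠ 0) (hη : ∀ i ∈ s, RedTo A (SS.cst (e i)⁻¹ * η i) 1)
    (E : Qb) (hE : E = ∑ i ∈ s, a i * e i) (hE0 : E ≠ 0) (hA : ∀ i ∈ s, a i * e i / E ∈ A) :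
    IsC A (∑ i ∈ s, SS.cst (a i) * η i) := by
  classical
  refine ⟨E⁻¹, inv_ne_zero hE0, ?_⟩
  have key : ∀ i ∈ s, RedTo A (SS.cst E⁻¹ * (SS.cst (a i) * η i))
      (cstk A (if h : a i * e i / E ∈ A then resA A ⟨_, h⟩ else 0)) := by
    intro i hi
    rw [dif_pos (hA i hi)]
    refine ((RedTo.cst_of_mem (⟨_, hA i hi⟩ : A)).mul (hη i hi)).congr ?_ (mul_one _)
    have e1 : SS.cst (a i * e i / E) = SS.cst E⁻¹ * SS.cst (a i) * SS.cst (e i) := by
      rw [← cst_mul, ← cst_mul]; congr 1; field_simp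
    have e2 : SS.cst (e i)⁻¹ = (SS.cst (e i))⁻¹ := map_inv₀ _ _
    have he' := cst_ne_zero (he i hi)
    show SS.cst (a i * e i / E) * _ = _
    rw [e1, e2]
    field_simp
  have h1 := RedTo.sum' s _ _ key
  rw [← Finset.mul_sum] at h1
  refine h1.congr rfl ?_
  rw [← map_sum]
  have : (∑ i ∈ s, if h : a i * e i / E ∈ A then resA A ⟨_, h⟩ else 0) = 1 := by
    have h2 : (∑ i ∈ s, if h : a i * e i / E ∈ A then resA A ⟨_, h⟩ else 0)
        = resA A (∑ i ∈ s, if h : a i * e i / E ∈ A then (⟨_, h⟩ : A) else 0) := by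
      rw [map_sum]
      refine Finset.sum_congr rfl fun i _ => ?_
      split_ifs
      · rfl
      · rw [map_zero]
    rw [h2]
    have h3 : (∑ i ∈ s, if h : a i * e i / E ∈ A then (⟨_, h⟩ : A) else 0) = 1 := by
      apply Subtype.ext
      rw [AddSubmonoidClass.coe_finsetSum]
      have : ∀ i ∈ s, (((if h : a i * e i / E ∈ A then (⟨_, h⟩ : A) else 0) : A) : Qb)
          = a i * e i / E := by
        intro i hi
        rw [dif_pos (hA i hi)]
      rw [Finset.sum_congr rfl this, ← Finset.sum_div, ← hE, div_self hE0]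
      rfl
    rw [h3, map_one]
  rw [this]
  exact map_one _

/-- **Fourier trick, constants.**  `e i ≠ 0` (`i < n`), `ζ` a primitive `n`-th root of unity, `n` a unit of
`A`: for some `j < n` the sum `E = ∑ i < n, (ζ⁻¹) ^ (i * j) * e i` is nonzero and dominates all its terms. -/
theorem exists_dft_const {n : ℕ} (hn : 0 < n) (hnA : ((n : Qb))⁻¹ ∈ A) {ζ : Qb}
    (hζ : IsPrimitiveRoot ζ n) (e : ℕ → Qb) (he : ∀ i < n, e i ≠ 0) :
    ∃ j < n, (∑ i ∈ Finset.range n, (ζ⁻¹) ^ (i * j) * e i) ≠ 0 ∧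
      ∀ i < n, (ζ⁻¹) ^ (i * j) * e i / (∑ i ∈ Finset.range n, (ζ⁻¹) ^ (i * j) * e i) ∈ A := by
  classical
  set v := A.valuation with hv
  have hζ0 : ζ ≠ 0 := hζ.ne_zero hn.ne'
  have hvζ : v ζ = 1 := by
    have h1 : v ζ ^ n = 1 := by rw [← map_pow, hζ.pow_eq_one, map_one]
    exact (pow_eq_one_iff_of_nonneg zero_le hn.ne').mp h1
  have hvζi : ∀ k : ℕ, v ((ζ⁻¹) ^ k) = 1 := fun k => by
    rw [map_pow, map_inv₀, hvζ, inv_one, one_pow]
  have hvζk : ∀ k : ℕ, v (ζ ^ k) = 1 := fun k => by rw [map_pow, hvζ, one_pow]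
  -- the dominant index
  obtain ⟨i₀, hi₀, hmax⟩ := Finset.exists_max_image (Finset.range n) (fun i => v (e i))
    ⟨0, Finset.mem_range.mpr hn⟩
  rw [Finset.mem_range] at hi₀
  have hei₀ : e i₀ ≠ 0 := he i₀ hi₀
  have hvi₀ : v (e i₀) ≠ 0 := (Valuation.ne_zero_iff _).mpr hei₀
  set E : ℕ → Qb := fun j => ∑ i ∈ Finset.range n, (ζ⁻¹) ^ (i * j) * e i with hE
  -- Fourier inversion
  have hinv : ∑ j ∈ Finset.range n, ζ ^ (i₀ * j) * E j = n * e i₀ := by
    simp only [hE, Finset.mul_sum]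
    rw [Finset.sum_comm]
    have : ∀ i ∈ Finset.range n, ∑ j ∈ Finset.range n, ζ ^ (i₀ * j) * ((ζ⁻¹) ^ (i * j) * e i)
        = if i = i₀ then (n : Qb) * e i₀ else 0 := by
      intro i hi
      rw [Finset.mem_range] at hi
      have e1 : ∀ j, ζ ^ (i₀ * j) * ((ζ⁻¹) ^ (i * j) * e i) = (ζ ^ i₀ * (ζ⁻¹) ^ i) ^ j * e i := by
        intro j
        rw [mul_pow, ← pow_mul, ← pow_mul]; ring
      simp only [e1]
      rw [← Finset.sum_mul]
      split_ifs with h
      · subst h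
        have : ζ ^ i * (ζ⁻¹) ^ i = 1 := by rw [← mul_pow, mul_inv_cancel₀ hζ0, one_pow]
        rw [this]
        simp only [one_pow, Finset.sum_const, Finset.card_range, nsmul_eq_mul, mul_one]
      · have hx1 : ζ ^ i₀ * (ζ⁻¹) ^ i ≠ 1 := by
          intro h1
          apply h
          have : ζ ^ i₀ = ζ ^ i := by
            have h2 : ζ ^ i₀ * (ζ⁻¹) ^ i * ζ ^ i = ζ ^ i := by rw [h1, one_mul]
            rwa [mul_assoc, ← mul_pow, inv_mul_cancel₀ hζ0, one_pow, mul_one] at h2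
          exact (hζ.pow_inj hi₀ hi this).symm
        have hxn : (ζ ^ i₀ * (ζ⁻¹) ^ i) ^ n = 1 := by
          rw [mul_pow, ← pow_mul, ← pow_mul, mul_comm i₀, mul_comm i, pow_mul, pow_mul, inv_pow,
            hζ.pow_eq_one, inv_one, one_pow, one_pow, one_mul]
        rw [geom_sum_eq hx1, hxn, sub_self, zero_div, zero_mul]
    rw [Finset.sum_congr rfl this, Finset.sum_ite_eq' (Finset.range n) i₀]
    rw [if_pos (Finset.mem_range.mpr hi₀)]
  have hvn : v ((n : Qb)) = 1 := by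
    have h1 : v ((n : Qb)) ≤ 1 := by
      rw [hv, A.valuation_le_one_iff]; exact natCast_mem A n
    have h2 : v ((n : Qb))⁻¹ ≤ 1 := by
      rw [hv, A.valuation_le_one_iff]; exact hnA
    have hn0 : (n : Qb) ≠ 0 := Nat.cast_ne_zero.mpr hn.ne'
    have hvn0 : v (n : Qb) ≠ 0 := (Valuation.ne_zero_iff _).mpr hn0
    rw [map_inv₀] at h2
    have h3 : 1 ≤ v (n : Qb) := by
      by_contra hlt
      push Not at hlt
      have := (one_lt_inv₀ (zero_lt_iff.mpr hvn0)).mpr hlt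
      exact absurd h2 (not_le.mpr this)
    exact le_antisymm h1 h3
  -- some `E j` has the valuation of `e i₀`
  have hex : ∃ j < n, v (e i₀) ≤ v (E j) := by
    by_contra hcon
    push Not at hcon
    have hlt : v (∑ j ∈ Finset.range n, ζ ^ (i₀ * j) * E j) < v (e i₀) := by
      refine Valuation.map_sum_lt v hvi₀ fun j hj => ?_
      rw [map_mul, hvζk, one_mul]
      exact hcon j (Finset.mem_range.mp hj)
    rw [hinv, map_mul, hvn, one_mul] at hlt
    exact lt_irrefl _ hlt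
  obtain ⟨j, hj, hle⟩ := hex
  have hEj0 : E j ≠ 0 := by
    intro h0
    rw [h0, map_zero] at hle
    exact hvi₀ (le_antisymm hle zero_le)
  refine ⟨j, hj, hEj0, fun i hi => ?_⟩
  rw [← A.valuation_le_one_iff, ← hv, map_div₀, map_mul, hvζi, one_mul]
  have hvE : v (E j) ≠ 0 := (Valuation.ne_zero_iff _).mpr hEj0
  rw [div_le_one₀ (zero_lt_iff.mpr hvE)]
  exact (hmax i (Finset.mem_range.mpr hi)).trans hle

/-- **Fourier trick.** -/
theorem exists_dft {n : ℕ} (hn : 0 < n) (hnA : ((n : Qb))⁻¹ ∈ A) {ζ : Qb}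
    (hζ : IsPrimitiveRoot ζ n) (w : ℕ → LaurentSeries Qb) (w₀ : LaurentSeries Qb)
    (hw : ∀ i < n, IsC A (w i / w₀)) :
    ∃ j < n, IsC A ((∑ i ∈ Finset.range n, SS.cst ((ζ⁻¹) ^ (i * j)) * w i) / w₀) := by
  classical
  choose! c hc hred using hw
  obtain ⟨j, hj, hE0, hA⟩ := exists_dft_const hn hnA hζ (fun i => (c i)⁻¹)
    (fun i hi => inv_ne_zero (hc i hi))
  refine ⟨j, hj, ?_⟩
  have := isC_sum (A := A) (Finset.range n) (fun i => w i / w₀) (fun i => (c i)⁻¹)
    (fun i => (ζ⁻¹) ^ (i * j)) (fun i hi => inv_ne_zero (hc i (Finset.mem_range.mp hi)))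
    (fun i hi => by rw [inv_inv]; exact hred i (Finset.mem_range.mp hi)) _ rfl hE0
    (fun i hi => hA i (Finset.mem_range.mp hi))
  refine this.congr ?_
  rw [Finset.sum_div]
  exact Finset.sum_congr rfl fun i _ => by rw [mul_div_assoc]

end

end Fermat.Agent.S43.DX
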